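import Fermat.Agent.S55.T.T6pH353.NormRel

/-!
# S55, layer T, leaf T6p (helper353): the transfer formula

For a subgroup `H ≤ G` of finite index, `G`-representations `A`, `B`, an `H`-morphism
`f₀ : Res_H A ⟶ Res_H B` and all `n`:

`(N_{G/H} f₀)_* = cor ∘ (f₀)_* ∘ res : Hⁿ(G, A) ⟶ Hⁿ(G, B)`

(`transfer`), where `cor = H572.cor` is the corestriction defined by dimension shifting.
-/

set_option autoImplicit false

open CategoryTheory groupCohomology Rep Limits

universe u

namespace Fermat.Agent.S55.T.H353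

open Fermat.Agent.S55.H572

noncomputable section

variable {k G : Type u} [CommRing k] [Group G] (H : Subgroup G)

/-! ### The map induced by an `H`-morphism on `coind₁` -/

/-- Underlying linear map of `coindH`: `φ ↦ (x ↦ x f₀ (x⁻¹ φ(x)))`. -/
def coindHLin {A B : Rep.{u} k G} (f₀ : res H.subtype A ⟶ res H.subtype B) :
    (coind₁ A).V →ₗ[k] (coind₁ B).V where
  toFun φ := mkCoind (res (⊥ : Subgroup G).subtype B) (fun x => conjTerm H f₀ x (φ.1 x))
  map_add' φ ψ := by
    apply Subtype.ext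
    funext x
    simp [conjTerm]
  map_smul' r φ := by
    apply Subtype.ext
    funext x
    simp [conjTerm]

lemma coindHLin_apply {A B : Rep.{u} k G} (f₀ : res H.subtype A ⟶ res H.subtype B)
    (φ : (coind₁ A).V) (x : G) : (coindHLin H f₀ φ).1 x = conjTerm H f₀ x (φ.1 x) := rfl

/-- The `H`-morphism `Res_H (coind₁ A) ⟶ Res_H (coind₁ B)` induced by an `H`-morphism
`f₀ : Res_H A ⟶ Res_H B`; it extends `f₀` along `coind₁ι`. -/
def coindH {A B : Rep.{u} k G} (f₀ : res H.subtype A ⟶ res H.subtype B) :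
    res H.subtype (coind₁ A) ⟶ res H.subtype (coind₁ B) :=
  Rep.ofHom (ρ := (res H.subtype (coind₁ A)).ρ) (σ := (res H.subtype (coind₁ B)).ρ)
    ⟨coindHLin H f₀, fun h => by
      apply LinearMap.ext
      intro φ
      apply Subtype.ext
      funext x
      change conjTerm H f₀ x (φ.1 (x * (h : G))) = conjTerm H f₀ (x * (h : G)) (φ.1 (x * (h : G)))
      rw [conjTerm_mul_mem]⟩

lemma coindH_hom_apply {A B : Rep.{u} k G} (f₀ : res H.subtype A ⟶ res H.subtype B)
    (φ : (coind₁ A).V) (x : G) : ((coindH H f₀).hom φ).1 x = conjTerm H f₀ x (φ.1 x) := rfl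

lemma coind₁ι_coindH {A B : Rep.{u} k G} (f₀ : res H.subtype A ⟶ res H.subtype B) :
    (resFunctor H.subtype).map (coind₁ι A) ≫ coindH H f₀ =
      f₀ ≫ (resFunctor H.subtype).map (coind₁ι B) := by
  apply Rep.hom_ext
  apply Representation.IntertwiningMap.ext
  apply LinearMap.ext
  intro a
  apply Subtype.ext
  funext x
  change conjTerm H f₀ x (A.ρ x a) = B.ρ x (f₀.hom a)
  unfold conjTerm
  rw [← Module.End.mul_apply (A.ρ x⁻¹), ← map_mul]
  simp

/-! ### The map induced by an `H`-morphism on `up` -/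

instance epi_upSCRes_g (A : Rep.{u} k G) : Epi (upSCRes H A).g :=
  (upSCRes_shortExact H A).epi_g

lemma upH_aux {A B : Rep.{u} k G} (f₀ : res H.subtype A ⟶ res H.subtype B) :
    (resFunctor H.subtype).map (coind₁ι A) ≫ coindH H f₀ ≫
      (resFunctor H.subtype).map (upπ B) = 0 := by
  rw [← Category.assoc, coind₁ι_coindH, Category.assoc, ← Functor.map_comp]
  have h2 : coind₁ι B ≫ upπ B = 0 := (upSC B).zero
  rw [h2, Functor.map_zero, comp_zero]

/-- The `H`-morphism `Res_H (up A) ⟶ Res_H (up B)` induced by an `H`-morphism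
`f₀ : Res_H A ⟶ Res_H B`. -/
def upH {A B : Rep.{u} k G} (f₀ : res H.subtype A ⟶ res H.subtype B) :
    res H.subtype (up A) ⟶ res H.subtype (up B) :=
  (upSCRes_shortExact H A).exact.desc (coindH H f₀ ≫ (resFunctor H.subtype).map (upπ B))
    (upH_aux H f₀)

lemma upπ_upH {A B : Rep.{u} k G} (f₀ : res H.subtype A ⟶ res H.subtype B) :
    (resFunctor H.subtype).map (upπ A) ≫ upH H f₀ =
      coindH H f₀ ≫ (resFunctor H.subtype).map (upπ B) :=
  (upSCRes_shortExact H A).exact.g_desc _ (upH_aux H f₀)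

/-- The morphism of short complexes `Res_H (upSC A) ⟶ Res_H (upSC B)` induced by an
`H`-morphism. -/
def upHSCMap {A B : Rep.{u} k G} (f₀ : res H.subtype A ⟶ res H.subtype B) :
    upSCRes H A ⟶ upSCRes H B where
  τ₁ := f₀
  τ₂ := coindH H f₀
  τ₃ := upH H f₀
  comm₁₂ := (coind₁ι_coindH H f₀).symm
  comm₂₃ := (upπ_upH H f₀).symm

/-- The connecting maps `δ_H` are natural with respect to `H`-morphisms. -/
lemma δH_naturalH {A B : Rep.{u} k G} (f₀ : res H.subtype A ⟶ res H.subtype B) (n : ℕ) :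
    δH H A n ≫ groupCohomology.map (MonoidHom.id H) f₀ (n + 1) =
      groupCohomology.map (MonoidHom.id H) (upH H f₀) n ≫ δH H B n :=
  groupCohomology.δ_naturality (upSCRes_shortExact H A) (upSCRes_shortExact H B)
    (upHSCMap H f₀) n (n + 1) rfl

/-! ### Relative norms of the induced maps -/

variable [Fintype (G ⧸ H)]

lemma normRel_coindH {A B : Rep.{u} k G} (f₀ : res H.subtype A ⟶ res H.subtype B) :
    normRel H (coindH H f₀) = coind₁Map (normRel H f₀) := by
  apply Rep.hom_ext
  apply Representation.IntertwiningMap.ext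
  apply LinearMap.ext
  intro φ
  apply Subtype.ext
  funext x
  change (∑ q : G ⧸ H, (coind₁ B).ρ q.out ((coindH H f₀).hom ((coind₁ A).ρ q.out⁻¹ φ))).1 x =
    ∑ q : G ⧸ H, conjTerm H f₀ q.out (φ.1 x)
  rw [Submodule.coe_sum, Finset.sum_apply]
  have h1 : ∀ q : G ⧸ H,
      ((coind₁ B).ρ q.out ((coindH H f₀).hom ((coind₁ A).ρ q.out⁻¹ φ))).1 x =
        conjTerm H f₀ ((x • q : G ⧸ H)).out (φ.1 x) := by
    intro q
    change conjTerm H f₀ (x * q.out) (φ.1 (x * q.out * q.out⁻¹)) = _
    rw [mul_inv_cancel_right]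
    have h2 : (x • q : G ⧸ H) = QuotientGroup.mk (x * q.out) := by
      conv_lhs => rw [← QuotientGroup.out_eq' q]
      rfl
    rw [h2, conjTerm_out]
  rw [Finset.sum_congr rfl (fun q _ => h1 q)]
  exact Fintype.sum_equiv (MulAction.toPerm x) _ _ (fun q => rfl)

lemma normRel_upH {A B : Rep.{u} k G} (f₀ : res H.subtype A ⟶ res H.subtype B) :
    normRel H (upH H f₀) = upMap (normRel H f₀) := by
  rw [← cancel_epi (upπ A), ← normRel_comp_left, upπ_upH, normRel_comp_right, normRel_coindH,
    upπ_naturality]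

/-! ### The transfer formula -/

set_option backward.isDefEq.respectTransparency false in
/-- The transfer formula in degree `0`. -/
theorem transfer_zero {A B : Rep.{u} k G} (f₀ : res H.subtype A ⟶ res H.subtype B) :
    groupCohomology.map (MonoidHom.id G) (normRel H f₀) 0 =
      resH H A 0 ≫ groupCohomology.map (MonoidHom.id H) f₀ 0 ≫ cor H 0 B := by
  have hcor : cor H 0 B = cor0 H B := rfl
  rw [hcor, cor0, ← cancel_mono (H0Iso B).hom]
  simp only [Category.assoc, Iso.inv_hom_id, Category.comp_id]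
  rw [map_id_comp_H0Iso_hom, map_id_comp_H0Iso_hom_assoc, ← Category.assoc (resH H A 0),
    resH_H0Iso, Category.assoc]
  congr 1
  apply ModuleCat.hom_ext
  apply LinearMap.ext
  intro a
  apply Subtype.ext
  change ∑ q : G ⧸ H, B.ρ q.out (f₀.hom (A.ρ q.out⁻¹ a.1)) =
    ∑ q : G ⧸ H, B.ρ q.out (f₀.hom a.1)
  refine Finset.sum_congr rfl fun q _ => ?_
  rw [a.2 q.out⁻¹]

/-- The map induced on `Hⁿ(G, -)` by a `G`-morphism (explicit implicit arguments). -/
abbrev mapG {A B : Rep.{u} k G} (f : A ⟶ B) (n : ℕ) :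
    groupCohomology A n ⟶ groupCohomology B n :=
  groupCohomology.map (MonoidHom.id G) f n

/-- The map induced on `Hⁿ(H, -)` by an `H`-morphism between restrictions. -/
abbrev mapH {A B : Rep.{u} k G} (f₀ : res H.subtype A ⟶ res H.subtype B) (n : ℕ) :
    groupCohomology (res H.subtype A) n ⟶ groupCohomology (res H.subtype B) n :=
  groupCohomology.map (MonoidHom.id H) f₀ n

lemma transfer_step (n : ℕ)
    (ih : ∀ {A B : Rep.{u} k G} (f₀ : res H.subtype A ⟶ res H.subtype B),
      mapG (normRel H f₀) n = resH H A n ≫ mapH H f₀ n ≫ cor H n B)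
    {A B : Rep.{u} k G} (f₀ : res H.subtype A ⟶ res H.subtype B) :
    mapG (normRel H f₀) (n + 1) = resH H A (n + 1) ≫ mapH H f₀ (n + 1) ≫ cor H (n + 1) B := by
  have e1 : δG A n ≫ mapG (normRel H f₀) (n + 1) = mapG (upMap (normRel H f₀)) n ≫ δG B n :=
    δG_natural (normRel H f₀) n
  have e2 : mapG (upMap (normRel H f₀)) n =
      resH H (up A) n ≫ mapH H (upH H f₀) n ≫ cor H n (up B) := by
    rw [← normRel_upH]
    exact ih (upH H f₀)
  have e3 : δH H B n ≫ cor H (n + 1) B = cor H n (up B) ≫ δG B n := δH_cor H n B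
  have e4 : δH H A n ≫ mapH H f₀ (n + 1) = mapH H (upH H f₀) n ≫ δH H B n :=
    δH_naturalH H f₀ n
  have e5 : δG A n ≫ resH H A (n + 1) = resH H (up A) n ≫ δH H A n := δG_resH H A n
  rw [← cancel_epi (δG A n), e1, e2]
  calc (resH H (up A) n ≫ mapH H (upH H f₀) n ≫ cor H n (up B)) ≫ δG B n
      = resH H (up A) n ≫ mapH H (upH H f₀) n ≫ (cor H n (up B) ≫ δG B n) := by
        simp only [Category.assoc]
    _ = resH H (up A) n ≫ (mapH H (upH H f₀) n ≫ δH H B n) ≫ cor H (n + 1) B := by
        rw [← e3]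
        simp only [Category.assoc]
    _ = (resH H (up A) n ≫ δH H A n) ≫ mapH H f₀ (n + 1) ≫ cor H (n + 1) B := by
        rw [← e4]
        simp only [Category.assoc]
    _ = δG A n ≫ resH H A (n + 1) ≫ mapH H f₀ (n + 1) ≫ cor H (n + 1) B := by
        rw [← e5]
        simp only [Category.assoc]

/-- **Transfer formula.**  For an `H`-morphism `f₀ : Res_H A ⟶ Res_H B`, the map induced on
`Hⁿ(G, -)` by the relative norm `N_{G/H} f₀` is `cor ∘ (f₀)_* ∘ res`. -/
theorem transfer (n : ℕ) : ∀ {A B : Rep.{u} k G} (f₀ : res H.subtype A ⟶ res H.subtype B),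
    groupCohomology.map (MonoidHom.id G) (normRel H f₀) n =
      resH H A n ≫ groupCohomology.map (MonoidHom.id H) f₀ n ≫ cor H n B := by
  induction n with
  | zero => exact fun f₀ => transfer_zero H f₀
  | succ n ih => exact fun f₀ => transfer_step H n ih f₀

/-- The transfer formula, elementwise. -/
theorem transfer_apply (n : ℕ) {A B : Rep.{u} k G} (f₀ : res H.subtype A ⟶ res H.subtype B)
    (x : groupCohomology A n) :
    (groupCohomology.map (MonoidHom.id G) (normRel H f₀) n).hom x =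
      (cor H n B).hom ((groupCohomology.map (MonoidHom.id H) f₀ n).hom
        ((resH H A n).hom x)) := by
  rw [transfer H n f₀]
  rfl

end

end Fermat.Agent.S55.T.H353
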