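import Fermat.Agent.S55.E1.Defs
import Fermat.Agent.S55.T.IntSMul
import Fermat.Agent.S55.T.T6pH353.Transfer

/-!
# S55, layer T, leaf T6p (helper353): a class module at `p` restricts to a class module over
every `p`-subgroup; corestriction is injective on `H²(P, C)` for a Sylow `p`-subgroup `P`.
-/

set_option autoImplicit false

open CategoryTheory groupCohomology

namespace Fermat.Agent.S55.T.H353

open Fermat.Agent.S55.H572 Fermat.Agent.S55.E1

noncomputable section

/-! ### Elementary group theory -/

/-- A generator of a finite group has order the cardinality of the group. -/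
lemma addOrderOf_eq_card_of_forall_nsmul {M : Type} [AddCommGroup M] (g : M)
    (hgen : ∀ x : M, ∃ n : ℕ, x = n • g) : addOrderOf g = Nat.card M := by
  have htop : AddSubgroup.zmultiples g = ⊤ := by
    rw [eq_top_iff]
    intro x _
    obtain ⟨n, rfl⟩ := hgen x
    exact AddSubgroup.nsmul_mem _ (AddSubgroup.mem_zmultiples g) n
  rw [← Nat.card_zmultiples, htop, AddSubgroup.card_top]

/-! ### Transitivity of restriction -/

section Transport

variable {k G : Type} [CommRing k] [Group G] (A : Rep.{0} k G) (P : Subgroup G) (K : Subgroup P)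

/-- Transitivity of restriction, on cohomology: `Hⁿ(K, (A|_P)|_K) ≅ Hⁿ(K', A|_{K'})` where
`K' = K.map P.subtype` is `K` viewed as a subgroup of `G`. -/
def resResIso353 (n : ℕ) :
    groupCohomology (T.resSub (T.resSub A P) K) n ≅
      groupCohomology (T.resSub A (K.map P.subtype)) n :=
  groupCohomology.mapIso (K.equivMapOfInjective P.subtype P.subtype_injective)
    (LinearEquiv.refl k A.V) (fun g => by
      ext x
      rfl) n

/-- Compatibility of `resResIso353` with the restriction maps. -/
lemma resMap_resResIso353_inv (n : ℕ) :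
    T.resMap A (K.map P.subtype) n ≫ (resResIso353 A P K n).inv =
      T.resMap A P n ≫ T.resMap (T.resSub A P) K n := by
  unfold resResIso353
  rw [groupCohomology.mapIso_inv]
  refine (groupCohomology.map_comp _ _ _ _ n).symm.trans ?_
  refine Eq.trans ?_ (groupCohomology.map_comp _ _ _ _ n)
  exact groupCohomology.map_congr rfl rfl n

lemma resResIso353_inv_resMap (n : ℕ) (x : groupCohomology A n) :
    (resResIso353 A P K n).inv.hom ((T.resMap A (K.map P.subtype) n).hom x) =
      (T.resMap (T.resSub A P) K n).hom ((T.resMap A P n).hom x) := by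
  have h := congrArg (fun f => f.hom x) (resMap_resResIso353_inv A P K n)
  exact h

lemma resResIso353_hom_resMap (n : ℕ) (x : groupCohomology A n) :
    (resResIso353 A P K n).hom.hom ((T.resMap (T.resSub A P) K n).hom ((T.resMap A P n).hom x)) =
      (T.resMap A (K.map P.subtype) n).hom x := by
  rw [← resResIso353_inv_resMap]
  exact congrArg (fun f => f.hom ((T.resMap A (K.map P.subtype) n).hom x))
    (resResIso353 A P K n).inv_hom_id

lemma card_map_subtype353 : Nat.card (K.map P.subtype) = Nat.card K :=
  (Nat.card_congr (K.equivMapOfInjective P.subtype P.subtype_injective).toEquiv).symm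

end Transport

/-! ### Restriction of a class module at `p` to a `p`-subgroup -/

section ClassModule

variable {G : Type} [Group G] [Finite G]

/-- For a `p`-subgroup `P`, the class `res_P γ` has order `|P|`. -/
lemma addOrderOf_resMap_of_classModuleAt {p : ℕ} {C : Rep.{0} ℤ G} {γ : groupCohomology C 2}
    (hC : IsClassModuleAt p C γ) (P : Subgroup G) (hP : IsPGroup p P) :
    addOrderOf ((T.resMap C P 2).hom γ) = Nat.card P := by
  obtain ⟨-, hcard, hgen⟩ := hC P hP
  rw [addOrderOf_eq_card_of_forall_nsmul _ hgen, hcard]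

/-- A class module at `p` restricts to a class module (in the sense of `T.IsClassModule`) over
every `p`-subgroup. -/
theorem isClassModule_of_isPGroup {p : ℕ} {C : Rep.{0} ℤ G} {γ : groupCohomology C 2}
    (hC : IsClassModuleAt p C γ) (P : Subgroup G) (hP : IsPGroup p P) :
    T.IsClassModule (T.resSub C P) ((T.resMap C P 2).hom γ) := by
  intro K
  have hK' : IsPGroup p (K.map P.subtype) := hP.to_le (Subgroup.map_subtype_le K)
  obtain ⟨h1, hcard, hgen⟩ := hC (K.map P.subtype) hK'
  have hord : addOrderOf ((T.resMap C (K.map P.subtype) 2).hom γ) = Nat.card K := by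
    rw [addOrderOf_resMap_of_classModuleAt hC _ hK', card_map_subtype353]
  have hg : (resResIso353 C P K 2).inv.hom ((T.resMap C (K.map P.subtype) 2).hom γ) =
      (T.resMap (T.resSub C P) K 2).hom ((T.resMap C P 2).hom γ) :=
    resResIso353_inv_resMap C P K 2 γ
  have hg' : (resResIso353 C P K 2).hom.hom
      ((T.resMap (T.resSub C P) K 2).hom ((T.resMap C P 2).hom γ)) =
      (T.resMap C (K.map P.subtype) 2).hom γ :=
    resResIso353_hom_resMap C P K 2 γ
  have hinj : Function.Injective (resResIso353 C P K 2).hom.hom := by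
    intro a b hab
    have h := congrArg (resResIso353 C P K 2).inv.hom hab
    have e := fun z => congrArg (fun f => f.hom z) (resResIso353 C P K 2).hom_inv_id
    exact (e a).symm.trans (h.trans (e b))
  refine ⟨Limits.IsZero.of_iso h1 (resResIso353 C P K 1), ?_, ?_, ?_⟩
  · intro x
    obtain ⟨n, hn⟩ := hgen ((resResIso353 C P K 2).hom.hom x)
    refine ⟨(n : ℤ), hinj ?_⟩
    rw [T.modSMul_eq_zsmul, natCast_zsmul, map_nsmul, hg']
    exact hn
  · intro c hc
    rw [T.modSMul_eq_zsmul] at hc
    have h2 : c • (T.resMap C (K.map P.subtype) 2).hom γ = 0 := by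
      rw [← hg', ← map_zsmul, hc, map_zero]
    have h3 := (addOrderOf_dvd_iff_zsmul_eq_zero).2 h2
    rw [hord] at h3
    obtain ⟨d, hd⟩ := h3
    exact ⟨d, hd⟩
  · rw [T.modSMul_eq_zsmul]
    apply hinj
    rw [map_zsmul, hg', map_zero]
    apply (addOrderOf_dvd_iff_zsmul_eq_zero).1
    rw [hord]

/-- Corestriction from a `p`-subgroup `P` of index prime to `p` is injective on `H²(P, C)` for a
class module `C` at `p`. -/
theorem cor_injective_of_classModuleAt {p : ℕ} {C : Rep.{0} ℤ G} {γ : groupCohomology C 2}
    (hC : IsClassModuleAt p C γ) (P : Subgroup G) (hP : IsPGroup p P)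
    (hidx : (Nat.card P).Coprime P.index) [Fintype (G ⧸ P)]
    (z : groupCohomology (T.resSub C P) 2) (hz : (cor P 2 C).hom z = 0) : z = 0 := by
  obtain ⟨-, -, hgen⟩ := hC P hP
  obtain ⟨n, rfl⟩ := hgen z
  have hcr : (cor P 2 C).hom ((T.resMap C P 2).hom γ) = P.index • γ := by
    have h := congrArg (fun f => f.hom γ) (resH_cor P 2 C)
    exact h
  rw [map_nsmul, hcr] at hz
  have h2 : (n * P.index) • (T.resMap C P 2).hom γ = 0 := by
    rw [mul_smul, ← map_nsmul, ← map_nsmul, hz, map_zero]
  have h3 := (addOrderOf_dvd_iff_nsmul_eq_zero).2 h2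
  rw [addOrderOf_resMap_of_classModuleAt hC P hP] at h3
  have h4 : Nat.card P ∣ n := hidx.dvd_of_dvd_mul_right h3
  apply (addOrderOf_dvd_iff_nsmul_eq_zero).1
  rw [addOrderOf_resMap_of_classModuleAt hC P hP]
  exact h4

end ClassModule

end

end Fermat.Agent.S55.T.H353
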