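import Fermat.Agent.S55.T.CoresH572
import Fermat.Agent.S55.T.T6pH353.SylowClass

/-!
# S55, layer T, leaf T6p (helper353): Tate–Nakayama AT `p`

`tateNakayamaAt_of : T.TateNakayamaSpec → E1.TateNakayamaAtSpec`.

Proof (coord/S55-E1.md §2): let `P` be a Sylow `p`-subgroup of `G`.  `(C|_P, res γ)` is a class
module over `P` (`isClassModule_of_isPGroup`), so the frozen `T.TateNakayamaSpec` applies to `P`.

* (ker) `cor : H²(P, C) → H²(G, C)` is injective, so `f_* = 0` on `H²(P, R)`; T6 gives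
  `f = N_P ψ`, hence `[G : P] • f = N_G ψ`.
* (surj) `χ_P := u • (res ∘ χ ∘ cor)`, T6 gives `f₀ ∈ Hom_P(R, C)` with `(f₀)_* = χ_P`;
  `f := N_{G/P} f₀`; by the transfer formula `f_* = cor ∘ (f₀)_* ∘ res = u [G:P]² χ`, and
  `u [G:P]² ≡ 1 mod |P|`.
-/

set_option autoImplicit false
set_option linter.style.haveILetI false

open CategoryTheory groupCohomology

namespace Fermat.Agent.S55.T.H353

open Fermat.Agent.S55.H572 Fermat.Agent.S55.E1

noncomputable section

variable {G : Type} [Group G]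

/-! ### Sums over cosets -/

/-- A sum over `G` decomposed along the left cosets of `P`. -/
lemma sum_eq_sum_out_mul [Fintype G] (P : Subgroup G) [Fintype P] [Fintype (G ⧸ P)]
    {M : Type} [AddCommMonoid M] (F : G → M) :
    ∑ g : G, F g = ∑ q : G ⧸ P, ∑ h : P, F (q.out * (h : G)) := by
  rw [← Fintype.sum_prod_type' (f := fun (q : G ⧸ P) (h : P) => F (q.out * (h : G)))]
  symm
  refine Fintype.sum_equiv
    ⟨fun x => x.1.out * (x.2 : G), fun g => (QuotientGroup.mk g, hPart P g), ?_, ?_⟩ _ _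
    (fun _ => rfl)
  · rintro ⟨q, h⟩
    simp only [mk_out_mul, hPart_out_mul]
  · intro g
    exact out_mul_hPart P g

/-- The `G`-norm of an additive map in terms of its `P`-norm. -/
lemma normAdd_eq_sum_out [Fintype G] (P : Subgroup G) [Fintype P] [Fintype (G ⧸ P)]
    {R C : Rep.{0} ℤ G} (ψ : R.V →+ C.V) (r : R.V) :
    T.normAdd ψ r = ∑ q : G ⧸ P, C.ρ q.out
      (T.normAdd (A := T.resSub R P) (B := T.resSub C P) ψ (R.ρ q.out⁻¹ r)) := by
  unfold T.normAdd
  rw [sum_eq_sum_out_mul P]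
  refine Finset.sum_congr rfl fun q _ => ?_
  rw [map_sum]
  refine Finset.sum_congr rfl fun h _ => ?_
  change C.ρ (q.out * (h : G)) (ψ (R.ρ (q.out * (h : G))⁻¹ r)) =
    C.ρ q.out (C.ρ (h : G) (ψ (R.ρ ((h⁻¹ : P) : G) (R.ρ q.out⁻¹ r))))
  rw [mul_inv_rev, map_mul, map_mul]
  rfl

/-! ### Torsion -/

/-- A `p`-primary element of `H²(G, R)` is killed by the order of a Sylow `p`-subgroup. -/
lemma card_sylow_nsmul_eq_zero [Finite G] {p : ℕ} [Fact p.Prime] (P : Sylow p G)
    {R : Rep.{0} ℤ G} (x : groupCohomology R 2) (hx : IsPPrimary p x) :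
    Nat.card (P : Subgroup G) • x = 0 := by
  obtain ⟨a, ha⟩ := hx
  have h1 : addOrderOf x ∣ p ^ a := addOrderOf_dvd_iff_nsmul_eq_zero.2 ha
  have h2 : addOrderOf x ∣ Nat.card (P : Subgroup G) * (P : Subgroup G).index := by
    rw [Subgroup.card_mul_index]
    exact addOrderOf_dvd_iff_nsmul_eq_zero.2 (T.H572.cardTorsion ℤ G R 2 (by norm_num) x)
  have hp : Nat.Coprime p (P : Subgroup G).index :=
    (Nat.Prime.coprime_iff_not_dvd (Fact.out : p.Prime)).2 P.not_dvd_index
  have h3 : Nat.Coprime (addOrderOf x) (P : Subgroup G).index :=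
    Nat.Coprime.coprime_dvd_left h1 (Nat.Coprime.pow_left a hp)
  exact addOrderOf_dvd_iff_nsmul_eq_zero.1 (h3.dvd_of_dvd_mul_right h2)

/-! ### The kernel part -/

theorem t6p_ker (hT6 : T.TateNakayamaSpec) {p : ℕ} [Fact p.Prime] [Fintype G]
    {C : Rep.{0} ℤ G} {γ : groupCohomology C 2} (hC : IsClassModuleAt p C γ)
    (R : Rep.{0} ℤ G) (hfree : @Module.Free ℤ R.V _ _ R.hV2)
    (hfin : @Module.Finite ℤ R.V _ _ R.hV2) (f : R ⟶ C)
    (hf : ∀ x : groupCohomology R 2, IsPPrimary p x → (T.coeffMap f 2).hom x = 0) :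
    ∃ (m : ℕ) (ψ : R.V →+ C.V), Nat.Coprime m p ∧ ∀ r : R.V, m • f.hom r = T.normAdd ψ r := by
  obtain ⟨P⟩ : Nonempty (Sylow p G) := inferInstance
  letI : Fintype (P : Subgroup G) := Fintype.ofFinite _
  letI : Fintype (G ⧸ (P : Subgroup G)) := Fintype.ofFinite _
  have hPp : IsPGroup p (P : Subgroup G) := P.isPGroup'
  have hcop : (Nat.card (P : Subgroup G)).Coprime (P : Subgroup G).index := P.card_coprime_index
  have hclass := isClassModule_of_isPGroup hC P hPp
  obtain ⟨-, hker⟩ := hT6 (P : Subgroup G) (T.resSub C P) ((T.resMap C P 2).hom γ) hclass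
    (T.resSub R P) hfree hfin
  obtain ⟨a, ha⟩ : ∃ a, Nat.card (P : Subgroup G) = p ^ a := IsPGroup.iff_card.1 hPp
  have hzero : ∀ y : groupCohomology (T.resSub R P) 2,
      (T.coeffMap ((Rep.resFunctor (P : Subgroup G).subtype).map f) 2).hom y = 0 := by
    intro y
    apply cor_injective_of_classModuleAt hC P hPp hcop
    have hnat := congrArg (fun g => g.hom y) (cor_natural (P : Subgroup G) 2 f)
    refine Eq.trans hnat ?_
    apply hf
    refine ⟨a, ?_⟩
    rw [← ha]
    have hy : Nat.card (P : Subgroup G) • y = 0 :=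
      T.H572.cardTorsion ℤ (P : Subgroup G) (T.resSub R P) 2 (by norm_num) y
    have := congrArg (cor (P : Subgroup G) 2 R).hom hy
    rw [map_nsmul, map_zero] at this
    exact this
  obtain ⟨ψ, hψ⟩ := (hker ((Rep.resFunctor (P : Subgroup G).subtype).map f)).1 hzero
  refine ⟨(P : Subgroup G).index, ψ, ?_, ?_⟩
  · exact ((Nat.Prime.coprime_iff_not_dvd (Fact.out : p.Prime)).2 P.not_dvd_index).symm
  · intro r
    rw [normAdd_eq_sum_out (P : Subgroup G) ψ r]
    have h1 : ∀ q : G ⧸ (P : Subgroup G), C.ρ q.out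
        (T.normAdd (A := T.resSub R P) (B := T.resSub C P) ψ (R.ρ q.out⁻¹ r)) = f.hom r := by
      intro q
      rw [← hψ]
      change C.ρ q.out (f.hom (R.ρ q.out⁻¹ r)) = f.hom r
      rw [Rep.hom_comm_apply f]
      exact @Representation.self_inv_apply ℤ G C.V _ _ _ C.hV2 C.ρ q.out (f.hom r)
    rw [Finset.sum_congr rfl (fun q _ => h1 q), Finset.sum_const, Finset.card_univ,
      Subgroup.index_eq_card, Nat.card_eq_fintype_card]

/-! ### The surjectivity part -/

theorem t6p_surj (hT6 : T.TateNakayamaSpec) {p : ℕ} [Fact p.Prime] [Fintype G]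
    {C : Rep.{0} ℤ G} {γ : groupCohomology C 2} (hC : IsClassModuleAt p C γ)
    (R : Rep.{0} ℤ G) (hfree : @Module.Free ℤ R.V _ _ R.hV2)
    (hfin : @Module.Finite ℤ R.V _ _ R.hV2)
    (χ : groupCohomology R 2 →+ groupCohomology C 2) :
    ∃ f : R ⟶ C, ∀ x : groupCohomology R 2, IsPPrimary p x → (T.coeffMap f 2).hom x = χ x := by
  obtain ⟨P⟩ : Nonempty (Sylow p G) := inferInstance
  letI : Fintype (P : Subgroup G) := Fintype.ofFinite _
  letI : Fintype (G ⧸ (P : Subgroup G)) := Fintype.ofFinite _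
  have hPp : IsPGroup p (P : Subgroup G) := P.isPGroup'
  have hcop : (Nat.card (P : Subgroup G)).Coprime (P : Subgroup G).index := P.card_coprime_index
  have hclass := isClassModule_of_isPGroup hC P hPp
  obtain ⟨hsurj, -⟩ := hT6 (P : Subgroup G) (T.resSub C P) ((T.resMap C P 2).hom γ) hclass
    (T.resSub R P) hfree hfin
  -- Bezout
  have hcop2 : Nat.Coprime ((P : Subgroup G).index * (P : Subgroup G).index)
      (Nat.card (P : Subgroup G)) :=
    Nat.Coprime.mul_left hcop.symm hcop.symm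
  obtain ⟨u, v, huv⟩ := Nat.isCoprime_iff_coprime.2 hcop2
  -- the local homomorphism
  let χP : groupCohomology (T.resSub R P) 2 →+ groupCohomology (T.resSub C P) 2 :=
    u • ((T.resMap C P 2).hom.toAddMonoidHom.comp
      (χ.comp (cor (P : Subgroup G) 2 R).hom.toAddMonoidHom))
  obtain ⟨f₀, hf₀⟩ := hsurj χP
  refine ⟨normRel (P : Subgroup G) f₀, ?_⟩
  intro x hx
  have hPx : Nat.card (P : Subgroup G) • x = 0 := card_sylow_nsmul_eq_zero P x hx
  have ht := transfer_apply (P : Subgroup G) 2 f₀ x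
  refine ht.trans ?_
  have h1 : (groupCohomology.map (MonoidHom.id (P : Subgroup G)) f₀ 2).hom
      ((resH (P : Subgroup G) R 2).hom x) = χP ((resH (P : Subgroup G) R 2).hom x) :=
    hf₀ _
  rw [h1]
  have h2 : (cor (P : Subgroup G) 2 R).hom ((resH (P : Subgroup G) R 2).hom x) =
      (P : Subgroup G).index • x := by
    have h := congrArg (fun f => f.hom x) (resH_cor (P : Subgroup G) 2 R)
    exact h
  have h3 : (cor (P : Subgroup G) 2 C).hom ((T.resMap C P 2).hom (χ x)) =
      (P : Subgroup G).index • χ x := by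
    have h := congrArg (fun f => f.hom (χ x)) (resH_cor (P : Subgroup G) 2 C)
    exact h
  have h4 : χP ((resH (P : Subgroup G) R 2).hom x) =
      u • (P : Subgroup G).index • (T.resMap C P 2).hom (χ x) := by
    change u • (T.resMap C P 2).hom (χ ((cor (P : Subgroup G) 2 R).hom
      ((resH (P : Subgroup G) R 2).hom x))) = _
    rw [h2, map_nsmul, map_nsmul]
  rw [h4, map_zsmul, map_nsmul, h3]
  -- arithmetic
  have h5 : Nat.card (P : Subgroup G) • χ x = 0 := by
    rw [← map_nsmul, hPx, map_zero]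
  have h7 : ((Nat.card (P : Subgroup G) : ℕ) : ℤ) • χ x = 0 := by
    rw [natCast_zsmul]
    exact h5
  have key : χ x = (u * (((P : Subgroup G).index * (P : Subgroup G).index : ℕ) : ℤ) +
      v * ((Nat.card (P : Subgroup G) : ℕ) : ℤ)) • χ x := by
    rw [huv, one_zsmul]
  conv_rhs => rw [key]
  rw [add_zsmul, mul_zsmul, mul_zsmul, h7, zsmul_zero, add_zero, natCast_zsmul, mul_nsmul]

/-! ### T6p -/

/-- **T6p.**  Tate–Nakayama at `p`, from the frozen `T.TateNakayamaSpec`. -/
theorem tateNakayamaAt_of (hT6 : T.TateNakayamaSpec) : TateNakayamaAtSpec := by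
  intro p hp G _ _ C γ hC R hfree hfin
  haveI : Fact p.Prime := ⟨hp⟩
  exact ⟨fun χ => t6p_surj hT6 hC R hfree hfin χ, fun f hf => t6p_ker hT6 hC R hfree hfin f hf⟩

end

end Fermat.Agent.S55.T.H353
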