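import Fermat.Agent.S55.H572.Cores

/-!
# S55, layer T, leaf T6p (helper353): the relative norm of an `H`-morphism

For a subgroup `H ≤ G` of finite index, `G`-representations `A`, `B` and an `H`-morphism
`f₀ : Res_H A ⟶ Res_H B`, the **relative norm**
`normRel H f₀ : A ⟶ B`, `a ↦ ∑_{q ∈ G/H} q f₀ (q⁻¹ a)` is a `G`-morphism.
It is compatible with composition by `G`-morphisms on both sides.
-/

set_option autoImplicit false

open CategoryTheory groupCohomology Rep Limits

universe u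

namespace Fermat.Agent.S55.T.H353

open Fermat.Agent.S55.H572

noncomputable section

variable {k G : Type u} [CommRing k] [Group G] (H : Subgroup G)

/-- The conjugate `g f₀ g⁻¹` of an `H`-morphism, as a function. -/
def conjTerm {A B : Rep.{u} k G} (f₀ : res H.subtype A ⟶ res H.subtype B) (g : G) (a : A.V) :
    B.V :=
  B.ρ g (f₀.hom (A.ρ g⁻¹ a))

lemma conjTerm_mul_mem {A B : Rep.{u} k G} (f₀ : res H.subtype A ⟶ res H.subtype B) (g : G)
    (h : H) (a : A.V) : conjTerm H f₀ (g * (h : G)) a = conjTerm H f₀ g a := by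
  unfold conjTerm
  have h1 : A.ρ (g * (h : G))⁻¹ a = (res H.subtype A).ρ h⁻¹ (A.ρ g⁻¹ a) := by
    rw [mul_inv_rev, map_mul]
    rfl
  rw [h1, Rep.hom_comm_apply f₀ h⁻¹ (A.ρ g⁻¹ a), map_mul]
  change B.ρ g (B.ρ (h : G) (B.ρ ((h⁻¹ : H) : G) _)) = _
  rw [← Module.End.mul_apply (B.ρ (h : G)), ← map_mul]
  simp

lemma conjTerm_out {A B : Rep.{u} k G} (f₀ : res H.subtype A ⟶ res H.subtype B) (g : G)
    (a : A.V) : conjTerm H f₀ (QuotientGroup.mk g : G ⧸ H).out a = conjTerm H f₀ g a := by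
  have h1 := conjTerm_mul_mem H f₀ (QuotientGroup.mk g : G ⧸ H).out (hPart H g) a
  rw [out_mul_hPart] at h1
  exact h1.symm

lemma conjTerm_smul {A B : Rep.{u} k G} (f₀ : res H.subtype A ⟶ res H.subtype B) (g x : G)
    (a : A.V) : conjTerm H f₀ g (A.ρ x a) = B.ρ x (conjTerm H f₀ (x⁻¹ * g) a) := by
  unfold conjTerm
  rw [← Module.End.mul_apply (B.ρ x), ← map_mul, mul_inv_cancel_left, mul_inv_rev, inv_inv,
    map_mul]
  rfl

variable [Fintype (G ⧸ H)]

/-- Underlying linear map of the relative norm. -/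
def normRelLin {A B : Rep.{u} k G} (f₀ : res H.subtype A ⟶ res H.subtype B) : A.V →ₗ[k] B.V where
  toFun a := ∑ q : G ⧸ H, conjTerm H f₀ q.out a
  map_add' a b := by
    rw [← Finset.sum_add_distrib]
    refine Finset.sum_congr rfl fun q _ => ?_
    simp [conjTerm]
  map_smul' r a := by
    rw [RingHom.id_apply, Finset.smul_sum]
    refine Finset.sum_congr rfl fun q _ => ?_
    simp [conjTerm]

lemma normRelLin_apply {A B : Rep.{u} k G} (f₀ : res H.subtype A ⟶ res H.subtype B) (a : A.V) :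
    normRelLin H f₀ a = ∑ q : G ⧸ H, B.ρ q.out (f₀.hom (A.ρ q.out⁻¹ a)) := rfl

lemma normRelLin_equivariant {A B : Rep.{u} k G} (f₀ : res H.subtype A ⟶ res H.subtype B)
    (x : G) (a : A.V) : normRelLin H f₀ (A.ρ x a) = B.ρ x (normRelLin H f₀ a) := by
  change ∑ q : G ⧸ H, conjTerm H f₀ q.out (A.ρ x a) = B.ρ x (∑ q : G ⧸ H, conjTerm H f₀ q.out a)
  rw [map_sum]
  have h1 : ∀ q : G ⧸ H, conjTerm H f₀ q.out (A.ρ x a) =
      B.ρ x (conjTerm H f₀ ((x⁻¹ • q : G ⧸ H)).out a) := by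
    intro q
    rw [conjTerm_smul]
    congr 1
    have h2 : (x⁻¹ • q : G ⧸ H) = QuotientGroup.mk (x⁻¹ * q.out) := by
      conv_lhs => rw [← QuotientGroup.out_eq' q]
      rfl
    rw [h2, conjTerm_out]
  rw [Finset.sum_congr rfl (fun q _ => h1 q)]
  exact Fintype.sum_equiv (MulAction.toPerm x⁻¹) _ _ (fun q => rfl)

/-- The **relative norm** `N_{G/H} f₀ = ∑_{q ∈ G/H} q f₀ q⁻¹ : A ⟶ B` of an `H`-morphism
`f₀ : Res_H A ⟶ Res_H B`. -/
def normRel {A B : Rep.{u} k G} (f₀ : res H.subtype A ⟶ res H.subtype B) : A ⟶ B :=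
  Rep.ofHom (ρ := A.ρ) (σ := B.ρ) ⟨normRelLin H f₀, fun g => by
    apply LinearMap.ext
    intro a
    exact normRelLin_equivariant H f₀ g a⟩

lemma normRel_hom_apply {A B : Rep.{u} k G} (f₀ : res H.subtype A ⟶ res H.subtype B) (a : A.V) :
    (normRel H f₀).hom a = ∑ q : G ⧸ H, B.ρ q.out (f₀.hom (A.ρ q.out⁻¹ a)) := rfl

/-- The relative norm does not depend on the choice of representatives. -/
lemma normRel_hom_apply_of_section {A B : Rep.{u} k G}
    (f₀ : res H.subtype A ⟶ res H.subtype B) (s : G ⧸ H → G)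
    (hs : ∀ q, (QuotientGroup.mk (s q) : G ⧸ H) = q) (a : A.V) :
    (normRel H f₀).hom a = ∑ q : G ⧸ H, B.ρ (s q) (f₀.hom (A.ρ (s q)⁻¹ a)) := by
  rw [normRel_hom_apply]
  refine Finset.sum_congr rfl fun q _ => ?_
  have h1 := conjTerm_out H f₀ (s q) a
  rw [hs q] at h1
  exact h1

/-- Compatibility of the relative norm with composition by a `G`-morphism on the left. -/
lemma normRel_comp_left {A' A B : Rep.{u} k G} (g : A' ⟶ A)
    (f₀ : res H.subtype A ⟶ res H.subtype B) :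
    normRel H ((resFunctor H.subtype).map g ≫ f₀) = g ≫ normRel H f₀ := by
  apply Rep.hom_ext
  apply Representation.IntertwiningMap.ext
  apply LinearMap.ext
  intro a
  change ∑ q : G ⧸ H, B.ρ q.out (f₀.hom (g.hom (A'.ρ q.out⁻¹ a))) =
    ∑ q : G ⧸ H, B.ρ q.out (f₀.hom (A.ρ q.out⁻¹ (g.hom a)))
  refine Finset.sum_congr rfl fun q _ => ?_
  rw [Rep.hom_comm_apply g]

/-- Compatibility of the relative norm with composition by a `G`-morphism on the right. -/
lemma normRel_comp_right {A B B' : Rep.{u} k G} (f₀ : res H.subtype A ⟶ res H.subtype B)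
    (g : B ⟶ B') :
    normRel H (f₀ ≫ (resFunctor H.subtype).map g) = normRel H f₀ ≫ g := by
  apply Rep.hom_ext
  apply Representation.IntertwiningMap.ext
  apply LinearMap.ext
  intro a
  change ∑ q : G ⧸ H, B'.ρ q.out (g.hom (f₀.hom (A.ρ q.out⁻¹ a))) =
    g.hom (∑ q : G ⧸ H, B.ρ q.out (f₀.hom (A.ρ q.out⁻¹ a)))
  rw [map_sum]
  refine Finset.sum_congr rfl fun q _ => ?_
  rw [Rep.hom_comm_apply g]

/-- The relative norm of (the restriction of) a `G`-morphism is `[G : H]` times it. -/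
lemma normRel_res {A B : Rep.{u} k G} (f : A ⟶ B) (a : A.V) :
    (normRel H ((resFunctor H.subtype).map f)).hom a = H.index • f.hom a := by
  change ∑ q : G ⧸ H, B.ρ q.out (f.hom (A.ρ q.out⁻¹ a)) = _
  have h1 : ∀ q : G ⧸ H, B.ρ q.out (f.hom (A.ρ q.out⁻¹ a)) = f.hom a := by
    intro q
    rw [Rep.hom_comm_apply f, ← Module.End.mul_apply, ← map_mul]
    simp
  rw [Finset.sum_congr rfl (fun q _ => h1 q), Finset.sum_const, Finset.card_univ,
    Subgroup.index_eq_card, Nat.card_eq_fintype_card]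

end

end Fermat.Agent.S55.T.H353
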